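/-
Programme MAZ (S15), Selmer core, glue brick S-SEL-INST for `r` odd (helper97).

`FlatCond42/SSel.card_selF_le` (helper42) instantiated at

* `χ := ExtCitation.cycloChar r` (mod-`r` cyclotomic character, Prelude),
* `Ip := Ap.inertiaSubgroupIn ℚ` for a valuation subring `Ap` over `p ≠ r`,
* `cc := complexConjugation`,
* `𝒥` : any set of subgroups containing an inertia group over every prime `q ∉ {p, r}`,

with the two base cases discharged: `hT := BaseTriv64.sel_triv_eq_bot` (helper64, brick L-r-T) and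
`hC := BaseChi97.sel_chi_eq_bot_of_cycloExp_vanish` (brick L-r-CHI; its local input `LocalF4 r`, brick
L-r-F4 of helper58, stays an explicit hypothesis here).

Result `card_selF_le_odd`: for `G` finite smooth in the class `selSystem r N (cycloChar r) 𝒥` with
(A2) `|G| ≤ |G^{Ip}|²` and (A3') `|G| ≤ |G^{⟨cc⟩}|²`, the Selmer group (flat at `r`, unramified at `𝒥`,
at `Ip` and at `⟨cc⟩`) satisfies `|SelF G| ≤ |G^{G_ℚ}|`.
-/
import Mathlib
import Fermat.Agent.MAZ.FlatCond42.SSel
import Fermat.Agent.MAZ.BaseChi97.Char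
import Fermat.Agent.MAZ.BaseTriv64.Global
import Fermat.Agent.PT.BR.DualTwist7
import Fermat.Agent.ES.J.CycloChar8
import Fermat.Prelude.Def_ExtCitation_KummerBridge

set_option autoImplicit false

namespace Fermat.Agent.MAZ.SSelInst97

open Fermat.Agent.Flat44 Fermat.Agent.MAZ.SelCoh42 Fermat.Agent.MAZ.FlatCond42
open Fermat.Agent.MAZ.BaseChi97 ExtCitation

variable (r : ℕ) [Fact r.Prime]

/-- The cyclotomic character is `-1` at complex conjugation. -/
theorem cycloChar_complexConjugation :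
    ((cycloChar r complexConjugation : (ZMod r)ˣ) : ZMod r) = -1 := by
  have hr : r.Prime := Fact.out
  have : NeZero r := ⟨hr.ne_zero⟩
  have hζ := Fermat.Agent.S14.Fields.zeta_spec r
  have hζr : Fermat.Agent.S14.Fields.zeta r ^ r = 1 := hζ.pow_eq_one
  have hζ0 : Fermat.Agent.S14.Fields.zeta r ≠ 0 := hζ.ne_zero hr.ne_zero
  have h1 : complexConjugation (Fermat.Agent.S14.Fields.zeta r)
      = (Fermat.Agent.S14.Fields.zeta r)⁻¹ :=
    Fermat.Agent.ES.J.CycloChar8.complexConjugation_rootOfUnity hr.ne_zero hζr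
  have h2 : complexConjugation (Fermat.Agent.S14.Fields.zeta r)
      = Fermat.Agent.S14.Fields.zeta r ^ cycloExp r complexConjugation :=
    Fermat.Agent.S14.Fields.apply_eq_pow_cycloExp r complexConjugation hζr
  have hinv : (Fermat.Agent.S14.Fields.zeta r)⁻¹ = Fermat.Agent.S14.Fields.zeta r ^ (r - 1) := by
    rw [eq_comm, ← mul_right_inj' hζ0, mul_inv_cancel₀ hζ0, ← pow_succ',
      Nat.sub_add_cancel hr.pos, hζr]
  have h3 : cycloExp r complexConjugation = r - 1 := by
    refine hζ.pow_inj ?_ (Nat.sub_lt hr.pos Nat.one_pos) ?_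
    · rw [← val_cycloChar]
      exact ZMod.val_lt _
    · rw [← h2, h1, hinv]
  rw [coe_cycloChar, h3, Nat.cast_sub hr.one_le, ZMod.natCast_self, zero_sub, Nat.cast_one]

variable {r}

/-- **S-SEL for `r` odd, instantiated.** -/
theorem card_selF_le_odd (hr2 : r ≠ 2) (hF4 : LocalF4 r) (N : ℕ) [NeZero N] (hrN : r ∣ N)
    {p : ℕ} (hp : p.Prime) (hpr : p ≠ r) (Ap : ValuationSubring Qb) (hAp : Ap.LiesOverPrime p)
    (𝒥 : Set (Subgroup GQ))
    (h𝒥 : ∀ q : ℕ, q.Prime → q ≠ r → q ≠ p →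
      ∃ A : ValuationSubring Qb, A.LiesOverPrime q ∧ A.inertiaSubgroupIn ℚ ∈ 𝒥)
    (G : Type) [AddCommGroup G] [DistribMulAction GQ G] [Finite G]
    (hsm : IsSmooth galLevel G) (hG : (selSystem r N (cycloChar r) 𝒥).mem G)
    (h1 : Nat.card G ≤ Nat.card (Inv (Ap.inertiaSubgroupIn ℚ) G) ^ 2)
    (h2 : Nat.card G ≤ Nat.card (Inv (Subgroup.zpowers complexConjugation) G) ^ 2) :
    Finite (SelF (selSystem r N (cycloChar r) 𝒥)
        ![Ap.inertiaSubgroupIn ℚ, Subgroup.zpowers complexConjugation] G) ∧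
      Nat.card (SelF (selSystem r N (cycloChar r) 𝒥)
        ![Ap.inertiaSubgroupIn ℚ, Subgroup.zpowers complexConjugation] G)
        ≤ Nat.card (Inv (⊤ : Subgroup GQ) G) := by
  -- the unramifiedness hypothesis of the base cases
  have hunr : ∀ (W : Type) [AddCommGroup W] [DistribMulAction GQ W] (c : Z1 galLevel W),
      (∀ J ∈ 𝒥, ∀ s ∈ J, c.1 s = 0) → (∀ s ∈ Ap.inertiaSubgroupIn ℚ, c.1 s = 0) →
      ∀ q : ℕ, q.Prime → q ≠ r → ∃ A : ValuationSubring Qb, A.LiesOverPrime q ∧
        ∀ σ ∈ A.inertiaSubgroupIn ℚ, c.1 σ = 0 := by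
    intro W _ _ c hun hIp q hq hqr
    by_cases hqp : q = p
    · subst hqp
      exact ⟨Ap, hAp, hIp⟩
    · obtain ⟨A, hA, hAJ⟩ := h𝒥 q hq hqr hqp
      exact ⟨A, hA, hun _ hAJ⟩
  refine card_selF_le (Ap.inertiaSubgroupIn ℚ) complexConjugation
    (fun s hs => Fermat.Agent.PT.BR.DualTwist7.cycloChar_eq_one_of_mem_inertia r hp hpr Ap hAp hs)
    (cycloChar_complexConjugation r) ?_ ?_ G hsm hG h1 h2
  · -- the trivial piece
    intro W _ _ _ hcard htriv _ c hfl hun hIp _
    have hW : ∀ x : W, r • x = 0 := by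
      intro x
      rw [← hcard]
      exact card_nsmul_eq_zero'
    have h0 := Fermat.Agent.MAZ.BaseTriv64.sel_triv_eq_bot r hr2 N hrN hW htriv c hfl
      (hunr W c hun hIp)
    refine ⟨0, fun g => ?_⟩
    rw [h0, smul_zero, sub_zero]
    rfl
  · -- the cyclotomic piece
    intro W _ _ _ hcard hchi _ _ c hfl hun hIp
    have hW : ∀ x : W, r • x = 0 := by
      intro x
      rw [← hcard]
      exact card_nsmul_eq_zero'
    exact sel_chi_eq_bot_of_cycloExp_vanish r hr2 hF4 N hrN hW hcard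
      (fun σ x => by rw [← val_cycloChar]; exact hchi σ x) c (hunr W c hun hIp) hfl

end Fermat.Agent.MAZ.SSelInst97
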