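/-
Programme MAZ (S15), Selmer core, glue brick S-SEL-INST, uniform in `r` (helper97).

`FlatCond42/SSel.card_selF_le` instantiated at `χ := ExtCitation.cycloChar r`,
`Ip := Ap.inertiaSubgroupIn ℚ` (`Ap` over `p ≠ r`), `cc := complexConjugation`, for EVERY prime `r`:

* `r` odd: base cases `BaseTriv64.sel_triv_eq_bot` (helper64) and `BaseChi97.sel_chi_eq_bot_of_cycloExp_vanish`
  (its local input `LocalF4 r`, brick L-r-F4, is the hypothesis `hF4 : r ≠ 2 → LocalF4 r`);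
* `r = 2`: base case `L2_86.cochain_eq_zero_of_isFlatCochain_two` (helper86); the cyclotomic piece does not
  occur.

`card_selF_le_uniform` : any `𝒥` containing an inertia group over every prime `q ∉ {p, r}`;
`card_selF_le_all`     : `𝒥 := inertiaFamily p r`, ALL inertia groups over ALL primes `q ∉ {p, r}`.
-/
import Mathlib
import Fermat.Agent.MAZ.SSelInst97.Main
import Fermat.Agent.MAZ.L2_86.BaseCase42

set_option autoImplicit false

namespace Fermat.Agent.MAZ.SSelInst97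

open Fermat.Agent.Flat44 Fermat.Agent.MAZ.SelCoh42 Fermat.Agent.MAZ.FlatCond42
open Fermat.Agent.MAZ.BaseChi97 ExtCitation

variable {r : ℕ} [Fact r.Prime]

/-- **S-SEL, instantiated, uniform in `r`.** -/
theorem card_selF_le_uniform (hF4 : r ≠ 2 → LocalF4 r) (N : ℕ) [NeZero N] (hrN : r ∣ N)
    {p : ℕ} (hp : p.Prime) (hpr : p ≠ r) (Ap : ValuationSubring Qb) (hAp : Ap.LiesOverPrime p)
    (𝒥 : Set (Subgroup GQ))
    (h𝒥 : ∀ q : ℕ, q.Prime → q ≠ r → q ≠ p →
      ∃ A : ValuationSubring Qb, A.LiesOverPrime q ∧ A.inertiaSubgroupIn ℚ ∈ 𝒥)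
    (G : Type) [AddCommGroup G] [DistribMulAction GQ G] [Finite G]
    (hsm : IsSmooth galLevel G) (hG : (selSystem r N (cycloChar r) 𝒥).mem G)
    (h1 : Nat.card G ≤ Nat.card (Inv (Ap.inertiaSubgroupIn ℚ) G) ^ 2)
    (h2 : Nat.card G ≤ Nat.card (Inv (Subgroup.zpowers complexConjugation) G) ^ 2) :
    Finite (SelF (selSystem r N (cycloChar r) 𝒥)
        ![Ap.inertiaSubgroupIn ℚ, Subgroup.zpowers complexConjugation] G) ∧
      Nat.card (SelF (selSystem r N (cycloChar r) 𝒥)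
        ![Ap.inertiaSubgroupIn ℚ, Subgroup.zpowers complexConjugation] G)
        ≤ Nat.card (Inv (⊤ : Subgroup GQ) G) := by
  by_cases hr2 : r = 2
  · -- `r = 2`
    have hunr : ∀ (W : Type) [AddCommGroup W] [DistribMulAction GQ W] (c : Z1 galLevel W),
        (∀ J ∈ 𝒥, ∀ s ∈ J, c.1 s = 0) → (∀ s ∈ Ap.inertiaSubgroupIn ℚ, c.1 s = 0) →
        ∀ q : ℕ, q.Prime → q ≠ r → ∃ A : ValuationSubring Qb, A.LiesOverPrime q ∧
          ∀ σ ∈ A.inertiaSubgroupIn ℚ, c.1 σ = 0 := by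
      intro W _ _ c hun hIp q hq hqr
      by_cases hqp : q = p
      · subst hqp
        exact ⟨Ap, hAp, hIp⟩
      · obtain ⟨A, hA, hAJ⟩ := h𝒥 q hq hqr hqp
        exact ⟨A, hA, hun _ hAJ⟩
    refine card_selF_le (Ap.inertiaSubgroupIn ℚ) complexConjugation
      (fun s hs => Fermat.Agent.PT.BR.DualTwist7.cycloChar_eq_one_of_mem_inertia r hp hpr Ap hAp hs)
      (cycloChar_complexConjugation r) ?_ ?_ G hsm hG h1 h2
    · intro W _ _ _ hcard htriv hfm c hfl hun hIp hcc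
      have hunr' := hunr W c hun hIp
      subst hr2
      refine ⟨0, fun g => ?_⟩
      rw [Fermat.Agent.MAZ.L2_86.cochain_eq_zero_of_isFlatCochain_two N htriv hcard hfm.1 c.1 hfl
        hunr' hcc g, smul_zero, sub_zero]
    · intro W _ _ _ _ _ _ hr2' _ _ _ _
      exact absurd hr2 hr2'
  · exact card_selF_le_odd hr2 (hF4 hr2) N hrN hp hpr Ap hAp 𝒥 h𝒥 G hsm hG h1 h2

/-- All inertia groups over all primes `q ∉ {p, r}`. -/
def inertiaFamily (p r : ℕ) : Set (Subgroup GQ) :=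
  {J | ∃ (q : ℕ) (A : ValuationSubring Qb), q.Prime ∧ q ≠ p ∧ q ≠ r ∧ A.LiesOverPrime q ∧
    J = A.inertiaSubgroupIn ℚ}

theorem mem_inertiaFamily {p r : ℕ} {J : Subgroup GQ} :
    J ∈ inertiaFamily p r ↔ ∃ (q : ℕ) (A : ValuationSubring Qb), q.Prime ∧ q ≠ p ∧ q ≠ r ∧
      A.LiesOverPrime q ∧ J = A.inertiaSubgroupIn ℚ := Iff.rfl

/-- **S-SEL, instantiated, with `𝒥` = all inertia groups at all primes `q ∉ {p, r}`.** -/
theorem card_selF_le_all (hF4 : r ≠ 2 → LocalF4 r) (N : ℕ) [NeZero N] (hrN : r ∣ N)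
    {p : ℕ} (hp : p.Prime) (hpr : p ≠ r) (Ap : ValuationSubring Qb) (hAp : Ap.LiesOverPrime p)
    (G : Type) [AddCommGroup G] [DistribMulAction GQ G] [Finite G]
    (hsm : IsSmooth galLevel G) (hG : (selSystem r N (cycloChar r) (inertiaFamily p r)).mem G)
    (h1 : Nat.card G ≤ Nat.card (Inv (Ap.inertiaSubgroupIn ℚ) G) ^ 2)
    (h2 : Nat.card G ≤ Nat.card (Inv (Subgroup.zpowers complexConjugation) G) ^ 2) :
    Finite (SelF (selSystem r N (cycloChar r) (inertiaFamily p r))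
        ![Ap.inertiaSubgroupIn ℚ, Subgroup.zpowers complexConjugation] G) ∧
      Nat.card (SelF (selSystem r N (cycloChar r) (inertiaFamily p r))
        ![Ap.inertiaSubgroupIn ℚ, Subgroup.zpowers complexConjugation] G)
        ≤ Nat.card (Inv (⊤ : Subgroup GQ) G) :=
  card_selF_le_uniform hF4 N hrN hp hpr Ap hAp (inertiaFamily p r)
    (fun q hq hqr hqp => by
      obtain ⟨A, hA⟩ := Fermat.Agent.S13.UnramBridge.exists_liesOverPrime_qbar q hq
      exact ⟨A, hA, q, A, hq, hqp, hqr, hA, rfl⟩)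
    G hsm hG h1 h2

end Fermat.Agent.MAZ.SSelInst97
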