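/-
Programme MAZ (S15), Selmer core, S-SEL-INST FINAL (helper97): the local input `LocalF4 r` of the cyclotomic
base case is discharged by helper58's `LocalR58.localF4` (brick L-r-F4), so the Selmer bound holds with no
open hypothesis, uniformly in the prime `r`.

* `BaseChi97`-level: `sel_chi_eq_bot` (cyclotomic base case, `cycloExp` form, unconditional);
* `card_selF_le_final` : `|SelF G| ≤ |G^{G_ℚ}|` for every finite smooth `G` of the class
  `selSystem r N (cycloChar r) (inertiaFamily p r)` with (A2) and (A3').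
-/
import Mathlib
import Fermat.Agent.MAZ.SSelInst97.Uniform
import Fermat.Agent.MAZ.LocalR58.F4Chi

set_option autoImplicit false

namespace Fermat.Agent.MAZ.SSelInst97

open Fermat.Agent.Flat44 Fermat.Agent.MAZ.SelCoh42 Fermat.Agent.MAZ.FlatCond42
open Fermat.Agent.MAZ.BaseChi97 ExtCitation

variable {r : ℕ} [Fact r.Prime]

/-- The local input of L-r-CHI, proved (helper58). -/
theorem localF4_holds (hr2 : r ≠ 2) : LocalF4 r := Fermat.Agent.MAZ.LocalR58.localF4 hr2

/-- **L-r-CHI, unconditional** (`cycloExp` form, coboundary hypothesis on inertia). -/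
theorem sel_chi_eq_bot (hr2 : r ≠ 2) (N : ℕ) [NeZero N] (hrN : r ∣ N)
    {V : Type} [AddCommGroup V] [DistribMulAction GQ V] (hV : ∀ x : V, r • x = 0)
    (hcard : Nat.card V = r) (hχ : ∀ (σ : GQ) (x : V), σ • x = cycloExp r σ • x)
    (c : Z1 galLevel V)
    (hunr : ∀ q : ℕ, q.Prime → q ≠ r → ∃ A : ValuationSubring Qb, A.LiesOverPrime q ∧
      ∃ v : V, ∀ σ ∈ A.inertiaSubgroupIn ℚ, c.1 σ = σ • v - v)
    (hflat : IsFlatCochain r N c.1) :
    ∃ v : V, ∀ σ : GQ, c.1 σ = σ • v - v :=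
  sel_chi_eq_bot_of_cycloExp r hr2 (localF4_holds hr2) N hrN hV hcard hχ c hunr hflat

/-- **S-SEL, instantiated, unconditional and uniform in `r`**, for `𝒥` as in `card_selF_le_uniform`. -/
theorem card_selF_le_final' (N : ℕ) [NeZero N] (hrN : r ∣ N)
    {p : ℕ} (hp : p.Prime) (hpr : p ≠ r) (Ap : ValuationSubring Qb) (hAp : Ap.LiesOverPrime p)
    (𝒥 : Set (Subgroup GQ))
    (h𝒥 : ∀ q : ℕ, q.Prime → q ≠ r → q ≠ p →
      ∃ A : ValuationSubring Qb, A.LiesOverPrime q ∧ A.inertiaSubgroupIn ℚ ∈ 𝒥)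
    (G : Type) [AddCommGroup G] [DistribMulAction GQ G] [Finite G]
    (hsm : IsSmooth galLevel G) (hG : (selSystem r N (cycloChar r) 𝒥).mem G)
    (h1 : Nat.card G ≤ Nat.card (Inv (Ap.inertiaSubgroupIn ℚ) G) ^ 2)
    (h2 : Nat.card G ≤ Nat.card (Inv (Subgroup.zpowers complexConjugation) G) ^ 2) :
    Finite (SelF (selSystem r N (cycloChar r) 𝒥)
        ![Ap.inertiaSubgroupIn ℚ, Subgroup.zpowers complexConjugation] G) ∧
      Nat.card (SelF (selSystem r N (cycloChar r) 𝒥)
        ![Ap.inertiaSubgroupIn ℚ, Subgroup.zpowers complexConjugation] G)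
        ≤ Nat.card (Inv (⊤ : Subgroup GQ) G) :=
  card_selF_le_uniform (fun hr2 => localF4_holds hr2) N hrN hp hpr Ap hAp 𝒥 h𝒥 G hsm hG h1 h2

/-- **S-SEL, instantiated, unconditional and uniform in `r`**, with `𝒥 = inertiaFamily p r`. -/
theorem card_selF_le_final (N : ℕ) [NeZero N] (hrN : r ∣ N)
    {p : ℕ} (hp : p.Prime) (hpr : p ≠ r) (Ap : ValuationSubring Qb) (hAp : Ap.LiesOverPrime p)
    (G : Type) [AddCommGroup G] [DistribMulAction GQ G] [Finite G]
    (hsm : IsSmooth galLevel G) (hG : (selSystem r N (cycloChar r) (inertiaFamily p r)).mem G)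
    (h1 : Nat.card G ≤ Nat.card (Inv (Ap.inertiaSubgroupIn ℚ) G) ^ 2)
    (h2 : Nat.card G ≤ Nat.card (Inv (Subgroup.zpowers complexConjugation) G) ^ 2) :
    Finite (SelF (selSystem r N (cycloChar r) (inertiaFamily p r))
        ![Ap.inertiaSubgroupIn ℚ, Subgroup.zpowers complexConjugation] G) ∧
      Nat.card (SelF (selSystem r N (cycloChar r) (inertiaFamily p r))
        ![Ap.inertiaSubgroupIn ℚ, Subgroup.zpowers complexConjugation] G)
        ≤ Nat.card (Inv (⊤ : Subgroup GQ) G) :=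
  card_selF_le_all (fun hr2 => localF4_holds hr2) N hrN hp hpr Ap hAp G hsm hG h1 h2

end Fermat.Agent.MAZ.SSelInst97
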